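import Fermat.Agent.GR.CurveRep.Tate
import Fermat.Agent.FR.Torsion

/-!
# Good reduction away from `p`, and the determinant

At a good prime `ℓ ≠ p` inertia acts trivially and Frobenius `φ` satisfies `φ² - a φ + ℓ = 0`.
A Frobenius which is not a scalar thus has determinant `ℓ`; since the representation is not
scalar, Chebotarev gives that the determinant is cyclotomic.
-/

set_option autoImplicit false

noncomputable section

open Fermat.EC Fermat.EC.Val Fermat.SW Fermat.GR.RT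

namespace Fermat.GR.CurveRep

local notation "ℚbar" => AlgebraicClosure ℚ
local notation "Γℚ" => (AlgebraicClosure ℚ ≃ₐ[ℚ] AlgebraicClosure ℚ)
local notation "M2" R => Matrix (Fin 2) (Fin 2) R

variable {W : WeierstrassCurve ℤ} {p : ℕ} [hp : Fact p.Prime] {hW : W.Δ ≠ 0}

/-- A prime other than `p` divides no power of `p`. -/
theorem not_dvd_pow {ℓ : ℕ} (hℓ : ℓ.Prime) (hℓp : ℓ ≠ p) (n : ℕ) : ¬ ℓ ∣ p ^ n := fun e =>
  hℓp ((Nat.prime_dvd_prime_iff_eq hℓ hp.out).mp (hℓ.dvd_of_dvd_pow e))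

/-- A matrix realising the action of `σ` on all levels is `rho σ`. -/
theorem rho_eq_of_forall {σ : Γℚ} {M : M2 ℤ_[p]}
    (h : ∀ n (v : Fin 2 → ℤ_[p]), pt p hW n (M.mulVec v) = σ • pt p hW n v) : rho p hW σ = M :=
  sub_eq_zero.mp (eq_zero_of_forall_pt (hW := hW) fun n v => by
    rw [Matrix.sub_mulVec, map_sub, pt_rho, h, sub_self])

variable {ℓ : ℕ} {A : ValuationSubring ℚbar}

/-- Inertia at a good prime `ℓ ≠ p` acts trivially. -/
theorem rho_inertia_good (hℓ : ℓ.Prime) (hℓp : ℓ ≠ p) (hgood : ¬ (ℓ : ℤ) ∣ W.Δ)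
    (hA : A.LiesOverPrime ℓ) {σ : Γℚ} (hσ : σ ∈ A.inertiaSubgroupIn ℚ) : rho p hW σ = 1 := by
  refine rho_eq_of_forall fun n v => ?_
  rw [Matrix.one_mulVec]
  refine (sub_eq_zero.mp (Red.eq_zero_of_nsmul_eq_zero ⟨hℓ, hA⟩
    (integralAt_overQbar W ⟨hℓ, hA⟩)
    (smul_sub_inE1 W ⟨hℓ, hA⟩ (isInert_of_mem_inertia hσ) (inE0_of_good W ⟨hℓ, hA⟩ hgood _))
    (not_dvd_pow hℓ hℓp n) (nsmul_gal_sub W (pow_nsmul_pt n v)))).symm

/-- At a good prime `ℓ ≠ p` Frobenius satisfies `φ² - a_ℓ φ + ℓ = 0`. -/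
theorem relation (hℓ : ℓ.Prime) (hℓp : ℓ ≠ p) (hgood : ¬ (ℓ : ℤ) ∣ W.Δ) (hA : A.LiesOverPrime ℓ)
    {φ : Γℚ} (hφ : A.IsFrobeniusAt φ ℓ) :
    rho p hW φ * rho p hW φ - ((W.apOfModel ℓ : ℤ) : ℤ_[p]) • rho p hW φ +
      (ℓ : ℤ_[p]) • 1 = 0 := by
  have := Fact.mk hℓ
  refine eq_zero_of_forall_pt (hW := hW) fun n v => ?_
  rw [Matrix.add_mulVec, Matrix.sub_mulVec, ← Matrix.mulVec_mulVec, Matrix.smul_mulVec,
    Matrix.smul_mulVec, Matrix.one_mulVec, Int.cast_smul_eq_zsmul, Nat.cast_smul_eq_nsmul, map_add,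
    map_sub, map_zsmul, map_nsmul, pt_rho, pt_rho, ← natCast_zsmul]
  exact Fermat.FR.frobenius_relation (W := W) ⟨hℓ, hA⟩ hgood hφ (not_dvd_pow hℓ hℓp n)
    (pow_nsmul_pt n v)

/-- A two by two matrix is a scalar. -/
def IsScalarMat {R : Type} [CommRing R] (M : M2 R) : Prop :=
  M 0 1 = 0 ∧ M 1 0 = 0 ∧ M 0 0 = M 1 1

/-- A matrix killed by a monic quadratic is scalar or has its trace and determinant. -/
theorem scalar_or_invariants {R : Type} [CommRing R] [IsDomain R] {M : M2 R} {a d : R}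
    (h : M * M - a • M + d • 1 = 0) :
    IsScalarMat M ∨ (M.trace = a ∧ M.det = d) := by
  have e : ∀ i j, (M * M - a • M + d • 1) i j = 0 := fun i j => by rw [h]; rfl
  have e00 := e 0 0
  have e01 := e 0 1
  have e10 := e 1 0
  have e11 := e 1 1
  simp [Matrix.mul_apply, Fin.sum_univ_two] at e00 e01 e10 e11
  by_cases ht : M.trace = a
  · refine Or.inr ⟨ht, ?_⟩
    rw [Matrix.det_fin_two]
    rw [Matrix.trace_fin_two] at ht
    linear_combination -e00 + (M 0 0) * ht
  · rw [Matrix.trace_fin_two] at ht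
    have ht' : M 0 0 + M 1 1 - a ≠ 0 := sub_ne_zero.mpr ht
    refine Or.inl ⟨?_, ?_, ?_⟩
    · exact mul_left_cancel₀ ht' (by linear_combination e01)
    · exact mul_left_cancel₀ ht' (by linear_combination e10)
    · exact mul_left_cancel₀ ht' (by linear_combination e00 - e11)

variable (p) in
/-- The representation and the cyclotomic character modulo `p ^ N`. -/
def levelRep (hW : W.Δ ≠ 0) (N : ℕ) : Γℚ →* ((M2 (ZMod (p ^ N))) × ZMod (p ^ N))ˣ :=
  (((PadicInt.toZModPow (p := p) N).mapMatrix.toMonoidHom.comp (rho p hW)).prod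
    ((PadicInt.toZModPow (p := p) N).toMonoidHom.comp (cycO padicInt_mem))).toHomUnits

/-- The representation on each level has open kernel. -/
theorem isOpen_ker_levelRep (N : ℕ) : IsOpen ((levelRep p hW N).ker : Set Γℚ) := by
  obtain ⟨L, hL, h1⟩ := matCont_rho p hW N
  obtain ⟨L', hL', h2⟩ := cycO_cont (p := p) (O := ℤ_[p]) padicInt_mem N
  have := hL
  have := hL'
  refine Fermat.CFT.isOpen_ker_of_forall _ (L ⊔ L') fun σ hσ => Units.ext (Prod.ext ?_ ?_)
  · have h : (1 : M2 (ZMod (p ^ N))) = (PadicInt.toZModPow (p := p) N).mapMatrix 1 :=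
      (map_one _).symm
    change (PadicInt.toZModPow (p := p) N).mapMatrix (rho p hW σ) = 1
    rw [h, ← sub_eq_zero, ← map_sub]
    ext i j
    exact toZModPow_eq_zero_iff.mpr
      (mem_pow_iff.mp (h1 σ (fun x hx =>
        hσ x (le_sup_left (α := IntermediateField ℚ ℚbar) hx)) i j))
  · change PadicInt.toZModPow N (cycO padicInt_mem σ) = 1
    rw [← sub_eq_zero, ← map_one (PadicInt.toZModPow (p := p) N), ← map_sub]
    exact toZModPow_eq_zero_iff.mpr
      (mem_pow_iff.mp (h2 σ fun x hx => hσ x (le_sup_right (α := IntermediateField ℚ ℚbar) hx)))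

/-- At an element acting as a non-scalar the determinant is the cyclotomic character. -/
theorem det_of_not_scalar (σ : Γℚ) (hns : ¬ IsScalarMat (rho p hW σ)) :
    (rho p hW σ).det = cycO padicInt_mem σ := by
  classical
  refine PadicInt.ext_of_toZModPow.mp fun n => ?_
  -- a level at which `σ` is not scalar
  obtain ⟨m, hm⟩ : ∃ m, ¬ IsScalarMat ((PadicInt.toZModPow (p := p) m).mapMatrix (rho p hW σ)) := by
    by_contra hall
    push Not at hall
    exact hns ⟨PadicInt.ext_of_toZModPow.mp fun k => by rw [map_zero]; exact (hall k).1,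
      PadicInt.ext_of_toZModPow.mp fun k => by rw [map_zero]; exact (hall k).2.1,
      PadicInt.ext_of_toZModPow.mp fun k => (hall k).2.2⟩
  -- Chebotarev at a level seeing both congruences
  set N := max n m
  have : NeZero (p ^ N) := ⟨pow_ne_zero _ hp.out.ne_zero⟩
  obtain ⟨ℓ, hℓ, hℓT, A, hA, -, φ, hφ, k, hk⟩ :=
    Fermat.CFT.exists_frobenius_map_eq_pow (levelRep p hW N) (isOpen_ker_levelRep N) σ
      (insert p W.Δ.natAbs.primeFactors)
  rw [Finset.mem_insert, not_or] at hℓT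
  have hgood : ¬ (ℓ : ℤ) ∣ W.Δ := fun e => hℓT.2 (Nat.mem_primeFactors.mpr
    ⟨hℓ, Int.natCast_dvd.mp e, fun e0 => hW (Int.natAbs_eq_zero.mp e0)⟩)
  rw [← map_pow] at hk
  have hk1 : (PadicInt.toZModPow (p := p) N).mapMatrix (rho p hW σ) =
      (PadicInt.toZModPow (p := p) N).mapMatrix (rho p hW (φ ^ k)) :=
    congrArg (fun u : ((M2 (ZMod (p ^ N))) × ZMod (p ^ N))ˣ =>
      (u : (M2 (ZMod (p ^ N))) × ZMod (p ^ N)).1) hk
  have hk2 : PadicInt.toZModPow N (cycO padicInt_mem σ) =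
      PadicInt.toZModPow N (cycO padicInt_mem (φ ^ k)) :=
    congrArg (fun u : ((M2 (ZMod (p ^ N))) × ZMod (p ^ N))ˣ =>
      (u : (M2 (ZMod (p ^ N))) × ZMod (p ^ N)).2) hk
  have hdφ : (rho p hW φ).det = (ℓ : ℤ_[p]) := by
    refine ((scalar_or_invariants (relation hℓ hℓT.1 hgood hA hφ)).resolve_left fun hs => hm ?_).2
    -- powers of a scalar are scalar
    have hpow : IsScalarMat (rho p hW (φ ^ k)) := by
      have e : rho p hW φ = Matrix.scalar (Fin 2) (rho p hW φ 0 0) := by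
        ext i j
        fin_cases i <;> fin_cases j <;> simp [hs.1, hs.2.1, hs.2.2]
      rw [map_pow, e, ← map_pow]
      simp [IsScalarMat]
    have hle := le_max_right n m
    have cast_eq : ∀ x y : ℤ_[p], PadicInt.toZModPow N x = PadicInt.toZModPow N y →
        PadicInt.toZModPow m x = PadicInt.toZModPow m y := fun x y e => by
      rw [← PadicInt.cast_toZModPow m N hle x, ← PadicInt.cast_toZModPow m N hle y, e]
    have hh : ∀ i j, PadicInt.toZModPow m (rho p hW σ i j) =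
        PadicInt.toZModPow m (rho p hW (φ ^ k) i j) := fun i j =>
      cast_eq _ _ (congrFun (congrFun hk1 i) j)
    refine ⟨?_, ?_, ?_⟩
    · change PadicInt.toZModPow m (rho p hW σ 0 1) = 0
      rw [hh, hpow.1, map_zero]
    · change PadicInt.toZModPow m (rho p hW σ 1 0) = 0
      rw [hh, hpow.2.1, map_zero]
    · change PadicInt.toZModPow m (rho p hW σ 0 0) = PadicInt.toZModPow m (rho p hW σ 1 1)
      rw [hh, hh, hpow.2.2]
  have hle := le_max_left n m
  rw [← PadicInt.cast_toZModPow n N hle, ← PadicInt.cast_toZModPow n N hle (cycO padicInt_mem σ)]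
  congr 1
  rw [hk2, RingHom.map_det, hk1, ← RingHom.map_det, map_pow, map_pow (cycO padicInt_mem),
    Matrix.det_pow, hdφ, cycO_frobenius padicInt_mem hℓ hℓT.1 hA hφ]

/-- Some element of the Galois group does not act as a scalar. -/
theorem exists_not_scalar (hp2 : 2 < p) : ∃ τ, ¬ IsScalarMat (rho p hW τ) := by
  by_contra hall
  push Not at hall
  have : NeZero p := ⟨hp.out.ne_zero⟩
  obtain ⟨c, hc⟩ := FiniteField.exists_nonsquare (F := ZMod p) (by
    rw [ZMod.ringChar_zmod_n]; omega)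
  have hc0 : c ≠ 0 := fun e => hc (e ▸ IsSquare.zero)
  obtain ⟨σ, hσ⟩ := Fermat.CFT.cycChar_surjective p (Units.mk0 c hc0)
  -- all scalars would make the cyclotomic character a square modulo `p`
  apply hc
  refine ⟨PadicInt.toZMod (rho p hW σ 0 0), ?_⟩
  have h := Tors.det_tRep (p := p) hW σ
  rw [hσ, Units.val_mk0, Matrix.det_fin_two, ← toZMod_rho, ← toZMod_rho, ← toZMod_rho,
    ← toZMod_rho, (hall σ).1, (hall σ).2.1, ← (hall σ).2.2] at h
  simpa using h.symm

/-- The determinant of the representation of the curve is cyclotomic. -/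
theorem det_rho (hp2 : 2 < p) (σ : Γℚ) : (rho p hW σ).det = cycO padicInt_mem σ := by
  by_cases hσ : IsScalarMat (rho p hW σ)
  swap
  · exact det_of_not_scalar σ hσ
  -- multiply by an element which is not scalar
  obtain ⟨τ, hτ⟩ := exists_not_scalar (hW := hW) hp2
  set s := rho p hW σ 0 0
  have e : rho p hW σ = Matrix.scalar (Fin 2) s := by
    ext i j
    fin_cases i <;> fin_cases j <;> simp [s, hσ.1, hσ.2.1, hσ.2.2]
  have hu : IsUnit (rho p hW σ).det :=
    (Matrix.isUnit_iff_isUnit_det _).mp ((Group.isUnit σ).map (rho p hW))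
  have hs : s ≠ 0 := fun h0 => hu.ne_zero (by rw [e, h0]; simp)
  have hnot : ¬ IsScalarMat (rho p hW (σ * τ)) := by
    rw [map_mul, e]
    rintro ⟨h1, h2, h3⟩
    simp [hs] at h1 h2 h3
    exact hτ ⟨h1, h2, h3⟩
  have h := det_of_not_scalar (hW := hW) _ hnot
  rw [map_mul, map_mul, Matrix.det_mul, det_of_not_scalar τ hτ] at h
  exact mul_right_cancel₀ ((Group.isUnit τ).map (cycO (O := ℤ_[p]) padicInt_mem)).ne_zero h

/-- The trace of Frobenius at a good prime `ℓ ≠ p` is `a_ℓ`. -/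
theorem trace_frobenius (hp2 : 2 < p) (hℓ : ℓ.Prime) (hℓp : ℓ ≠ p) (hgood : ¬ (ℓ : ℤ) ∣ W.Δ)
    (hA : A.LiesOverPrime ℓ) {φ : Γℚ} (hφ : A.IsFrobeniusAt φ ℓ) :
    (rho p hW φ).trace = ((W.apOfModel ℓ : ℤ) : ℤ_[p]) := by
  have hrel := relation (hW := hW) hℓ hℓp hgood hA hφ
  have hd : (rho p hW φ).det = (ℓ : ℤ_[p]) := by
    rw [det_rho hp2, cycO_frobenius padicInt_mem hℓ hℓp hA hφ]
  set M := rho p hW φ with hM
  set a := ((W.apOfModel ℓ : ℤ) : ℤ_[p])
  have hz : (M.trace - a) • M = 0 := by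
    have hCH := DS.mul_self_eq M
    rw [hd] at hCH
    rw [sub_smul]
    linear_combination (norm := abel) hrel - hCH
  by_contra hne
  have : M = 0 := (smul_eq_zero.mp hz).resolve_left (sub_ne_zero.mpr hne)
  rw [this, Matrix.det_zero] at hd
  exact hℓ.ne_zero (by exact_mod_cast hd.symm)

end Fermat.GR.CurveRep

end
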