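import Fermat.Agent.GR.CurveRep.Tate
import Fermat.Agent.FLAT.Curve.Flat

/-!
# Good reduction at `p`: the representation is flat

`isFlatAt_rho`: for `p ∤ Δ` the representation on the Tate module is flat at `p`.
-/

set_option autoImplicit false

noncomputable section

open Fermat.EC Fermat.EC.Line

namespace Fermat.GR.CurveRep

local notation "Γℚ" => (AlgebraicClosure ℚ ≃ₐ[ℚ] AlgebraicClosure ℚ)

variable {W : WeierstrassCurve ℤ} {p : ℕ} [hp : Fact p.Prime]

/-- With good reduction at `p` the representation is flat at `p`. -/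
theorem isFlatAt_rho (hW : W.Δ ≠ 0) (hgood : ¬ (p : ℤ) ∣ W.Δ)
    (hc : Fermat.GR.MatCont (rho p hW)) :
    (Fermat.GR.repOf (rho p hW) hc).IsFlatAt p := by
  refine Fermat.FLAT.isFlatAt_of_levels W hgood _
    (Finite.of_equiv _ (PadicInt.residueField (p := p)).symm.toEquiv) fun I hI => ?_
  -- the finite quotients of `ℤ_p` are by powers of `p`
  obtain ⟨n, rfl⟩ : ∃ n : ℕ, I = Ideal.span {(p : ℤ_[p]) ^ n} := by
    refine PadicInt.ideal_eq_span_pow_p (fun e => ?_)
    subst e
    have : Finite ℤ_[p] := Finite.of_equiv _ (RingEquiv.quotientBot ℤ_[p]).toEquiv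
    exact not_finite ℤ_[p]
  have : Finite (tors W (p ^ n)) := Nat.finite_of_card_ne_zero (by
    rw [natCard_tors hW (Nat.one_le_pow _ _ hp.out.pos)]
    exact pow_ne_zero _ (pow_ne_zero _ hp.out.ne_zero))
  have hM : ∀ σ : Γℚ, ∀ P ∈ tors W (p ^ n), σ • P ∈ tors W (p ^ n) := fun σ P hP => by
    rw [mem_tors] at hP ⊢
    rw [← gal_smul_nsmul, hP, gal_smul_zero]
  -- the `p ^ n` torsion maps onto the lattice modulo `p ^ n`
  set N : Submodule ℤ_[p] (Fin 2 → ℤ_[p]) := Ideal.span {(p : ℤ_[p]) ^ n} • ⊤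
  have hker : ∀ v, pt p hW n v = 0 → v ∈ N := fun v hv => by
    choose w hw using dvd_of_pt_eq_zero (hW := hW) n v hv
    rw [show v = ((p : ℤ_[p]) ^ n) • w from funext fun i => by rw [hw i]; rfl]
    exact Submodule.smul_mem_smul (Ideal.mem_span_singleton_self _) Submodule.mem_top
  choose sec hsec using fun R : tors W (p ^ n) => exists_pt (hW := hW) n R.1 (mem_tors.mp R.2)
  have heq : ∀ v w, pt p hW n v = pt p hW n w →
      (Submodule.Quotient.mk v : (Fin 2 → ℤ_[p]) ⧸ N) = Submodule.Quotient.mk w := fun v w e =>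
    (Submodule.Quotient.eq N).mpr (hker _ (by rw [map_sub, e, sub_self]))
  let π : tors W (p ^ n) →+ (Fin 2 → ℤ_[p]) ⧸ N :=
    { toFun := fun R => Submodule.Quotient.mk (sec R)
      map_zero' := (heq _ 0 (by rw [hsec, map_zero]; rfl)).trans (Submodule.Quotient.mk_zero N)
      map_add' := fun R S => by
        rw [← Submodule.Quotient.mk_add]
        exact heq _ _ (by rw [hsec, map_add, hsec, hsec]; rfl) }
  refine ⟨tors W (p ^ n), inferInstance, hM, π, fun y => ?_, fun σ R => ?_⟩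
  · obtain ⟨v, rfl⟩ := Submodule.Quotient.mk_surjective N y
    exact ⟨⟨pt p hW n v, mem_tors.mpr (pow_nsmul_pt n v)⟩, heq _ v (hsec _)⟩
  -- compatibly with Galois
  · refine heq _ ((rho p hW σ).mulVec (sec R)) ?_
    rw [hsec, pt_rho, hsec]
    rfl

end Fermat.GR.CurveRep

end
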