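import Fermat.Agent.EC.Semistable
import Fermat.Agent.FLAT.LocalGroup
import Fermat.Agent.HT.Mazur.Basic

/-!
# The decomposition group at a node acts on the components by a sign

At a prime of multiplicative reduction an element `τ` of the decomposition group fixes or
exchanges the two tangent directions at the node; correspondingly `τ P - P` or `τ P + P` has
nonsingular reduction for every torsion point `P` of odd order.
-/

set_option autoImplicit false

noncomputable section

open WeierstrassCurve WeierstrassCurve.Affine Fermat.EC Fermat.EC.Val Fermat.EC.Red Fermat.EC.Node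
  Fermat.FLAT
open scoped WeierstrassCurve.Affine

namespace Fermat.GR.CurveRep

local notation "ℚbar" => AlgebraicClosure ℚ
local notation "Γℚ" => (AlgebraicClosure ℚ ≃ₐ[ℚ] AlgebraicClosure ℚ)

/-- A translation moving the node at `q` to the origin to high accuracy. -/
structure IsNodeShift (W : WeierstrassCurve ℤ) (q : ℕ) (r t : ℤ) : Prop where
  /-- The translated `a₃` is divisible by `q ^ (ord_q Δ + 1)`. -/
  a₃ : (q : ℤ) ^ (padicValInt q W.Δ + 1) ∣ (Fermat.EC.trans r t • W).a₃
  /-- The translated `a₄` is divisible by `q ^ (ord_q Δ + 1)`. -/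
  a₄ : (q : ℤ) ^ (padicValInt q W.Δ + 1) ∣ (Fermat.EC.trans r t • W).a₄
  /-- The translated `a₆` is divisible by `q`. -/
  a₆ : (q : ℤ) ∣ (Fermat.EC.trans r t • W).a₆
  /-- The translated `b₂` is prime to `q`: the singular point is a node. -/
  b₂ : ¬ (q : ℤ) ∣ (Fermat.EC.trans r t • W).b₂

/-- At a prime of multiplicative reduction a node shift exists. -/
theorem exists_nodeShift (W : WeierstrassCurve ℤ) {q : ℕ} (hq : q.Prime) (hbad : (q : ℤ) ∣ W.Δ)
    (hc : ¬ (q : ℤ) ∣ W.c₄) : ∃ r t : ℤ, IsNodeShift W q r t := by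
  obtain ⟨r, t, h3, h4, h6, hb⟩ := exists_node_int W hq hbad hc (padicValInt q W.Δ + 1)
  exact ⟨r, t, h3, h4, h6, hb⟩

variable {W : WeierstrassCurve ℤ} {A : ValuationSubring ℚbar} {q : ℕ} {r t : ℤ}

/-- The translated curve over `ℚbar` is the base change of the translated model. -/
theorem changed_eq (r t : ℤ) :
    changed (⟨1, (r : ℚbar), 0, (t : ℚbar)⟩ : VariableChange ℚbar) (overQbar W)
      = overQbar (Fermat.EC.trans r t • W) := by
  ext <;>
    simp [changed, overQbar, Fermat.EC.trans, variableChange_a₁, variableChange_a₂,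
      variableChange_a₃, variableChange_a₄, variableChange_a₆]

/-- After a node shift the model is nodal at the place, with invariant `ord Δ`. -/
theorem IsNodeShift.isNodal (H : IsNodeShift W q r t) (h : IsPlace A q) (hΔ : W.Δ ≠ 0)
    (hbad : (q : ℤ) ∣ W.Δ) :
    IsNodal A q (changed (⟨1, (r : ℚbar), 0, (t : ℚbar)⟩ : VariableChange ℚbar) (overQbar W))
      (padicValInt q W.Δ) (padicValInt q W.Δ + 1) := by
  set m := padicValInt q W.Δ with hm
  set V := Fermat.EC.trans r t • W with hV
  have hVΔ : V.Δ = W.Δ := trans_Δ W r t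
  obtain ⟨hva, ha0⟩ := padicValInt_a₆_eq V h.1 H.a₃ H.a₄ H.a₆ H.b₂ (hVΔ ▸ hΔ)
    (by rw [hVΔ]; exact Nat.lt_succ_self m)
  rw [changed_eq]
  have hmpos : 0 < m := by
    have := Fact.mk h.1
    exact (padicValInt_dvd_iff 1 W.Δ |>.mp (by simpa using hbad)).resolve_left hΔ
  refine ⟨integralAt_overQbar V h, by exact_mod_cast hmpos, lt_add_one _, ?_, ?_, ?_, ?_⟩
  · rw [overQbar_a₃]; exact_mod_cast ge_intCast_of_dvd h H.a₃
  · rw [overQbar_a₄]; exact_mod_cast ge_intCast_of_dvd h H.a₄
  · rw [overQbar_a₆]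
    refine ⟨Int.cast_ne_zero.mpr ha0, ?_⟩
    rw [ord_intCast h ha0, hva, hVΔ]
  · have : (overQbar V).b₂ = ((V.b₂ : ℤ) : ℚbar) := by
      simp [overQbar, WeierstrassCurve.baseChange, map_b₂]
    rw [this]; exact is_intCast h H.b₂

/-- The quadratic whose roots are the tangent directions at the node. -/
def dirPoly (W : WeierstrassCurve ℤ) (r t : ℤ) (z : ℚbar) : ℚbar :=
  z ^ 2 + ((Fermat.EC.trans r t • W).a₁ : ℚbar) * z - ((Fermat.EC.trans r t • W).a₂ : ℚbar)

variable (A q) in
/-- `τ` preserves (`ε = 1`) or exchanges (`ε = -1`) the tangent directions. -/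
def Flips (W : WeierstrassCurve ℤ) (r t : ℤ) (τ : Γℚ) (ε : ℤ) : Prop :=
  (ε = 1 ∨ ε = -1) ∧ ∀ z : ℚbar, Ge A q z 0 → Gt A q (dirPoly W r t z) 0 →
    Gt A q (τ z - (if ε = 1 then z else -((Fermat.EC.trans r t • W).a₁ : ℚbar) - z)) 0

/-- Galois commutes with `dirPoly`. -/
theorem map_dirPoly (τ : Γℚ) (z : ℚbar) : τ (dirPoly W r t z) = dirPoly W r t (τ z) := by
  simp [dirPoly]

/-- Two approximate roots are congruent or conjugate. -/
theorem near_or (h : IsPlace A q) {z w : ℚbar} (hz : Ge A q z 0) (hw : Ge A q w 0)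
    (gz : Gt A q (dirPoly W r t z) 0) (gw : Gt A q (dirPoly W r t w) 0) :
    Gt A q (w - z) 0 ∨ Gt A q (w - (-((Fermat.EC.trans r t • W).a₁ : ℚbar) - z)) 0 := by
  set a : ℚbar := ((Fermat.EC.trans r t • W).a₁ : ℚbar)
  have ha : Ge A q a 0 := ge_intCast h _
  have hprod : Gt A q ((w - z) * (w - (-a - z))) 0 := by
    have e : (w - z) * (w - (-a - z)) = dirPoly W r t w - dirPoly W r t z := by
      simp only [dirPoly, a]; ring
    rw [e]; exact gw.sub h gz
  by_contra hc
  rw [not_or] at hc
  have h1 := (hw.sub h hz).is_of_not_gt hc.1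
  have h2 := (hw.sub h ((ha.neg h).sub h hz)).is_of_not_gt hc.2
  have := h1.mul h h2
  rw [zero_add] at this
  exact this.not_gt hprod

/-- Inertia preserves the tangent directions. -/
theorem flips_inertia (h : IsPlace A q) {τ : Γℚ} (hτ : τ ∈ A.inertiaSubgroupIn ℚ) :
    Flips A q W r t τ 1 :=
  ⟨Or.inl rfl, fun z hz _ => by
    rw [if_pos rfl]; exact (isInert_of_mem_inertia hτ).gt_sub h hz⟩

/-- The polynomial of the tangent directions has an integral root. -/
theorem exists_root_dirPoly (h : IsPlace A q) :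
    ∃ z : ℚbar, Ge A q z 0 ∧ dirPoly W r t z = 0 := by
  set a : ℤ := (Fermat.EC.trans r t • W).a₁
  set b : ℤ := (Fermat.EC.trans r t • W).a₂
  obtain ⟨s, hs⟩ := IsAlgClosed.exists_pow_nat_eq ((a : ℚbar) ^ 2 + 4 * (b : ℚbar)) two_pos
  refine ⟨(s - (a : ℚbar)) / 2, ?_, ?_⟩
  · by_contra hc
    set z := (s - (a : ℚbar)) / 2
    have e : z ^ 2 = (b : ℚbar) - (a : ℚbar) * z := by
      simp only [z]; field_simp; linear_combination hs
    rw [Ge, not_or, not_le] at hc
    have hI : Is A q z (ord A q z) := is_ord hc.1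
    have h2 := hI.pow h 2
    rw [e] at h2
    exact h2.not_gt (((ge_intCast h b).gt (by push_cast; linarith [hc.2])).sub h
      (((ge_intCast h a).mul h hI.ge).gt (by push_cast; linarith [hc.2])))
  · change ((s - (a : ℚbar)) / 2) ^ 2 + (a : ℚbar) * ((s - (a : ℚbar)) / 2) - (b : ℚbar) = 0
    field_simp
    linear_combination hs

/-- An element of decomposition fixes or exchanges the tangent directions. -/
theorem exists_flips (h : IsPlace A q) {τ : Γℚ} (hτ : τ ∈ A.decompositionSubgroup ℚ) :
    ∃ ε : ℤ, Flips A q W r t τ ε := by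
  classical
  obtain ⟨z₀, hz₀, e₀⟩ := exists_root_dirPoly (W := W) (r := r) (t := t) h
  set a : ℚbar := ((Fermat.EC.trans r t • W).a₁ : ℚbar) with ha
  have g₀ : Gt A q (dirPoly W r t z₀) 0 := Or.inl e₀
  have g₁ : Gt A q (dirPoly W r t (τ z₀)) 0 := Or.inl (by rw [← map_dirPoly, e₀, map_zero])
  have key : ∀ {x y : ℚbar}, Gt A q (x - y) 0 → Gt A q (τ x - τ y) 0 := fun hxy => by
    rw [← map_sub]; exact gt_apply_decomp h hτ hxy
  have hconj : ∀ x : ℚbar, τ (-a - x) = -a - τ x := fun x => by simp [ha]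
  -- the behaviour on one root decides it for all approximate roots
  by_cases hfix : Gt A q (τ z₀ - z₀) 0
  · refine ⟨1, Or.inl rfl, fun z hz gz => ?_⟩
    rw [if_pos rfl]
    rcases near_or h hz₀ hz g₀ gz with e | e
    · have := ((key e).sub h e).add h hfix
      rwa [show τ z - τ z₀ - (z - z₀) + (τ z₀ - z₀) = τ z - z by ring] at this
    · have := ((key e).sub h e).sub h hfix
      rwa [hconj, show τ z - (-a - τ z₀) - (z - (-a - z₀)) - (τ z₀ - z₀) = τ z - z by ring] at this
  · have hsw := (near_or h hz₀ (ge_apply_decomp h hτ hz₀) g₀ g₁).resolve_left hfix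
    refine ⟨-1, Or.inr rfl, fun z hz gz => ?_⟩
    rw [if_neg (by norm_num)]
    rcases near_or h hz₀ hz g₀ gz with e | e
    · have := ((key e).add h e).add h hsw
      rwa [show τ z - τ z₀ + (z - z₀) + (τ z₀ - (-a - z₀)) = τ z - (-a - z) by ring] at this
    · have := ((key e).add h e).sub h hsw
      rwa [hconj, show τ z - (-a - τ z₀) + (z - (-a - z₀)) - (τ z₀ - (-a - z₀)) =
        τ z - (-a - z) by ring] at this

open Classical in
/-- The sign of multiplicative reduction: `1` when split, `-1` otherwise. -/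
def splitSign (W : WeierstrassCurve ℤ) (q : ℕ) (r t : ℤ) : ℤ :=
  if ∃ c : ℤ, (q : ℤ) ∣ c ^ 2 + (Fermat.EC.trans r t • W).a₁ * c - (Fermat.EC.trans r t • W).a₂
  then 1 else -1

/-- The sign squares to one. -/
theorem splitSign_sq (W : WeierstrassCurve ℤ) (q : ℕ) (r t : ℤ) : splitSign W q r t ^ 2 = 1 := by
  rw [splitSign]; split_ifs <;> norm_num

/-- Frobenius moves the tangent directions by the split sign of the node. -/
theorem flips_frobenius (h : IsPlace A q) {φ : Γℚ} (hφ : A.IsFrobeniusAt φ q) :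
    Flips A q W r t φ (splitSign W q r t) := by
  classical
  set V := Fermat.EC.trans r t • W with hV
  have hD := hφ.mem_decompositionSubgroup
  have hcast : ∀ c : ℤ, dirPoly W r t (c : ℚbar) = ((c ^ 2 + V.a₁ * c - V.a₂ : ℤ) : ℚbar) := by
    intro c; simp only [dirPoly, hV]; push_cast; rfl
  rw [splitSign]
  split_ifs with hsplit
  · obtain ⟨c, hc⟩ := hsplit
    refine ⟨Or.inl rfl, fun z hz gz => ?_⟩
    rw [if_pos rfl]
    have gc : Gt A q (dirPoly W r t (c : ℚbar)) 0 := by
      rw [hcast]
      exact (ge_intCast_of_dvd h (k := 1) (by simpa using hc)).gt (by norm_num)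
    rcases near_or h (ge_intCast h c) hz gc gz with e | e
    · have := (gt_apply_decomp h hD e).sub h e
      rwa [map_sub, map_intCast, sub_sub_sub_cancel_right] at this
    · have := (gt_apply_decomp h hD e).sub h e
      rwa [map_sub, map_sub, map_neg, map_intCast, map_intCast, sub_sub_sub_cancel_right] at this
  · refine ⟨Or.inr rfl, fun z hz gz => ?_⟩
    rw [if_neg (by norm_num)]
    refine (near_or h hz (ge_apply_decomp h hD hz) gz ?_).resolve_left fun e => hsplit ?_
    · rw [← map_dirPoly]; exact gt_apply_decomp h hD gz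
    -- a root fixed by Frobenius lies in the prime field
    have hred : red A z ^ q = red A z := by
      rw [← red_apply_frob h hφ hz, red_eq_iff h (ge_apply_decomp h hD hz) hz]; exact e
    obtain ⟨c, hc⟩ : ∃ c : ℕ, red A z = red A (c : ℚbar) := by
      by_cases h0 : red A z = 0
      · exact ⟨0, by rw [h0, Nat.cast_zero, red_zero]⟩
      · obtain ⟨c, hc⟩ := exists_nat_of_pow_eq_one h (z := red A z) (mul_right_cancel₀ h0 (by
          rw [one_mul, ← pow_succ, Nat.sub_add_cancel h.1.one_le, hred]))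
        exact ⟨c, by rw [red_natCast, hc]⟩
    rw [red_eq_iff h hz (ge_natCast h c)] at hc
    refine ⟨(c : ℤ), ?_⟩
    by_contra hnd
    refine (is_intCast (A := A) h hnd).not_gt ?_
    rw [← hcast, Int.cast_natCast]
    have ed : dirPoly W r t (c : ℚbar) =
        dirPoly W r t z - (z - (c : ℚbar)) * (z + (c : ℚbar) + (V.a₁ : ℚbar)) := by
      simp only [dirPoly, hV]; ring
    rw [ed]
    exact gz.sub h ((hc.mul_ge h ((hz.add h (ge_natCast h c)).add h (ge_intCast h _))).mono
      (by simp))

/-- The decomposition group preserves nonsingular reduction. -/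
theorem inE0_smul_decomp (h : IsPlace A q) {τ : Γℚ} (hτ : τ ∈ A.decompositionSubgroup ℚ)
    {P : (overQbar W).Point} (hP0 : InE0 A q P) : InE0 A q (τ • P) := by
  rcases P with _ | ⟨x, y, hns⟩
  · trivial
  · obtain ⟨hns', e⟩ := smul_some W τ hns
    rw [e]
    rintro ⟨hx, hdx, hdy⟩
    refine hP0 ?_
    have hinv : τ⁻¹ ∈ A.decompositionSubgroup ℚ := inv_mem hτ
    have back : ∀ w : ℚbar, (τ⁻¹ : Γℚ) (τ w) = w := fun w => τ.symm_apply_apply w
    have e1 : τ (dX (overQbar W) x y) = dX (overQbar W) (τ x) (τ y) := by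
      simp [dX, _root_.map_ofNat]
    have e2 : τ (dY (overQbar W) x y) = dY (overQbar W) (τ x) (τ y) := by
      simp [dY, _root_.map_ofNat]
    refine ⟨back x ▸ ge_apply_decomp h hinv hx, ?_, ?_⟩
    · have := gt_apply_decomp h hinv hdx
      rwa [← e1, back] at this
    · have := gt_apply_decomp h hinv hdy
      rwa [← e2, back] at this

/-- **The sign lemma.** An element of the decomposition group acts on points of odd order as its
sign `ε`, up to points reducing to nonsingular points. -/
theorem inE0_smul_sub_zsmul (h : IsPlace A q) (hΔ : W.Δ ≠ 0) (hbad : (q : ℤ) ∣ W.Δ)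
    (H : IsNodeShift W q r t) {τ : Γℚ} (hτ : τ ∈ A.decompositionSubgroup ℚ) {ε : ℤ}
    (hF : Flips A q W r t τ ε) {n : ℕ} (hn : Odd n) {P : (overQbar W).Point} (hP : n • P = 0) :
    InE0 A q (τ • P - ε • P) := by
  have hW := integralAt_overQbar W h
  by_cases hP0 : InE0 A q P
  · -- nonsingular reduction is preserved by the decomposition group
    have hτP := inE0_smul_decomp h hτ hP0
    rcases hF.1 with rfl | rfl
    · rw [one_zsmul, sub_eq_add_neg]; exact hτP.add h hW (InE0.neg h hW hP0)
    · rw [neg_one_zsmul, sub_neg_eq_add]; exact hτP.add h hW hP0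
  -- otherwise work in the shifted coordinates, where `P` is close to the node
  set C : VariableChange ℚbar := ⟨1, (r : ℚbar), 0, (t : ℚbar)⟩ with hC
  have hN := H.isNodal h hΔ hbad
  set V := Fermat.EC.trans r t • W with hV
  have ha₁ : (changed C (overQbar W)).a₁ = (V.a₁ : ℚbar) := by rw [changed_eq, overQbar_a₁]
  have ha₂ : (changed C (overQbar W)).a₂ = (V.a₂ : ℚbar) := by rw [changed_eq, overQbar_a₂]
  rcases P with _ | ⟨x, y, hns⟩
  · exact absurd trivial hP0
  have hφP : n • pointHom C (overQbar W) (.some x y hns) = 0 := by rw [← map_nsmul, hP, map_zero]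
  have hφ0 : ¬ InE0 A q (pointHom C (overQbar W) (.some x y hns)) := fun e =>
    hP0 ((inE0_pointHom W h _).mp e)
  obtain ⟨x₁, y₁, hns₁, s, e₁, hlow⟩ := low_of_torsion h hN hn hφP hφ0
  obtain ⟨hns', eσ⟩ := smul_some W τ hns
  have eP : pointHom C (overQbar W) (.some x y hns) = Point.some x₁ y₁ hns₁ := e₁
  rw [pointHom_some] at e₁
  obtain ⟨ex₁, ey₁⟩ := Point.some.inj e₁
  subst ex₁ ey₁
  have hτx : τ (newX C x) = newX C (τ x) := by simp [newX, C]
  have hτy : τ (newY C x y) = newY C (τ x) (τ y) := by simp [newY, C]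
  set X := newX C x with hX
  set Y := newY C x y with hY
  have hnsσ : (changed C (overQbar W)).Nonsingular (τ X) (τ Y) := by
    rw [hτx, hτy]; exact nonsingular_new _ _ hns'
  have eτP : pointHom C (overQbar W) (τ • Point.some x y hns) = Point.some (τ X) (τ Y) hnsσ := by
    rw [eσ, pointHom_some]; simp only [hτx, hτy]
  obtain ⟨hs0, hsm, hIx, hGy⟩ := hlow
  have hX0 := hIx.1
  have gz : Ge A q (Y / X) 0 := by simpa using hGy.div h hIx
  have gdir : Gt A q (dirPoly W r t (Y / X)) 0 := by
    have e2 : dirPoly W r t (Y / X) = cone (changed C (overQbar W)) X Y / X ^ 2 := by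
      simp only [dirPoly, cone, ha₁, ha₂, ← hV]
      field_simp
    have gc : Gt A q (cone (changed C (overQbar W)) X Y) ((2 : ℕ) * s) := by
      rw [cone_eq hns₁.1]
      have := hN.mM
      exact ((hIx.ge.pow h 3).gt (by push_cast; linarith)).add h
        ((hN.a₆.gt (by push_cast; linarith)).add h
          (((hN.a₄.mul h hIx.ge).gt (by push_cast; linarith)).sub h
            ((hN.a₃.mul h hGy).gt (by push_cast; linarith))))
    rw [e2]
    exact (gc.div h (hIx.pow h 2)).mono (by simp)
  have hIτ : Is A q (τ X) s := is_apply_decomp h hτ hIx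
  -- `τ` moves the slope `Y / X` as prescribed by `ε`
  have hz := hF.2 _ gz gdir
  rw [map_div₀] at hz
  rcases hF.1 with rfl | rfl
  · rw [if_pos rfl] at hz
    obtain ⟨H0, -⟩ := sub_low h hN hnsσ hns₁ ⟨hs0, hsm, hIx, hGy⟩ hIτ hz
    refine (inE0_pointHom W h (r := r) (t := t) _).mp ?_
    rw [one_zsmul, map_sub, eτP, eP]
    exact H0
  · rw [if_neg (by norm_num)] at hz
    set Y' := (changed C (overQbar W)).negY X Y with hY'
    have hns₂ : (changed C (overQbar W)).Nonsingular X Y' := (nonsingular_neg ..).mpr hns₁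
    have hMs : s ≤ (padicValInt q W.Δ + 1 : ℚ) := by
      have := hN.mM
      linarith
    have hGy' : Ge A q Y' s := by
      rw [hY', negY]
      exact ((hGy.neg h).sub h ((hN.int.a₁.mul h hIx.ge).mono (by simp))).sub h (hN.a₃.mono hMs)
    have hz' : Gt A q (τ Y / τ X - Y' / X) 0 := by
      have e : τ Y / τ X - Y' / X = (τ Y / τ X - (-(V.a₁ : ℚbar) - Y / X)) +
          (changed C (overQbar W)).a₃ / X := by
        rw [hY', negY, ha₁]
        field_simp
        ring
      rw [e]
      exact hz.add h (((hN.a₃.div h hIx)).gt (by have := hN.mM; linarith))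
    obtain ⟨H0, -⟩ := sub_low h hN hnsσ hns₂ ⟨hs0, hsm, hIx, hGy'⟩ hIτ hz'
    refine (inE0_pointHom W h (r := r) (t := t) _).mp ?_
    rw [neg_one_zsmul, sub_neg_eq_add, map_add, eτP, eP]
    rwa [show Point.some X Y' hns₂ = -Point.some X Y hns₁ from (Point.neg_some hns₁).symm,
      sub_neg_eq_add] at H0

end Fermat.GR.CurveRep

end
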