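import Fermat.Agent.GR.CurveRep.NodeSign
import Fermat.Agent.SW.Ramified

/-!
# At a node some point of order `p` has singular reduction

The `p`-th division polynomial vanishes at the node modulo `q`, and its Newton polygon leaves an
integral root congruent to the node.
-/

set_option autoImplicit false

noncomputable section

open Polynomial WeierstrassCurve WeierstrassCurve.Affine Fermat.EC Fermat.EC.Val Fermat.EC.Red
  Fermat.EC.Node Fermat.EC.Line

namespace Fermat.GR.CurveRep

local notation "ℚbar" => AlgebraicClosure ℚ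

variable {W : WeierstrassCurve ℤ}

open scoped Classical in
/-- The abscissae of the nonzero `p`-torsion are the roots of `ψ_p`, `p` an odd prime. -/
theorem exists_factor (hΔ : W.Δ ≠ 0) {p : ℕ} (hp : p.Prime) (hp2 : p ≠ 2) :
    ∃ X₀ : Finset ℚbar, (W.preΨ' p).map (Int.castRingHom ℚbar) =
        C (p : ℚbar) * ∏ x ∈ X₀, (X - C x) ∧
      ∀ x ∈ X₀, ∃ P : (overQbar W).Point, p • P = 0 ∧ P ≠ 0 ∧ xco W P = x := by
  refine ⟨(nzTors hΔ hp).image (xco W), (preΨ'_factor hΔ hp hp2).1, fun x hx => ?_⟩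
  obtain ⟨P, hP, rfl⟩ := Finset.mem_image.mp hx
  exact ⟨P, ((mem_nzTors hΔ hp).mp hP).1, ((mem_nzTors hΔ hp).mp hP).2, rfl⟩

/-- `ψ_p` is not zero modulo a prime of multiplicative reduction. -/
theorem preΨ'_mod_ne_zero {q : ℕ} (hq : q.Prime) {p : ℕ} (hp : p.Prime) (hp2 : p ≠ 2)
    (hc : ¬ (q : ℤ) ∣ W.c₄) : (W.preΨ' p).map (Int.castRingHom (ZMod q)) ≠ 0 := by
  have := Fact.mk hq
  by_cases hqp : q = p
  · subst hqp
    by_cases h5 : 5 ≤ q
    · exact ModP.preΨ'_map_ne_zero W hq h5 fun _ => hc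
    obtain rfl : q = 3 := by
      have := hq.two_le
      interval_cases q
      · exact absurd rfl hp2
      · rfl
      · norm_num at hq
    intro h0
    apply hc
    have h3 := congrArg (fun g => Polynomial.coeff g 3) h0
    simp only [coeff_map, coeff_zero, eq_intCast] at h3
    rw [ZMod.intCast_zmod_eq_zero_iff_dvd, W.preΨ'_three] at h3
    have e3 : W.Ψ₃.coeff 3 = W.b₂ := by
      simp only [WeierstrassCurve.Ψ₃]
      have hz : ∀ (z : ℤ) (k : ℕ), k ≠ 0 → ((z : ℤ[X])).coeff k = 0 := fun z k hk => by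
        rw [← C_eq_intCast, coeff_C_of_ne_zero hk]
      simp [coeff_X_pow, coeff_mul_X_pow', mul_assoc, hz]
    rw [e3] at h3
    rw [WeierstrassCurve.c₄]
    exact dvd_sub (dvd_pow h3 two_ne_zero) (dvd_mul_of_dvd_left (by norm_num) _)
  · have hpK : ((p : ℕ) : ZMod q) ≠ 0 := by
      rw [Ne, ZMod.natCast_eq_zero_iff]
      exact fun e => hqp ((Nat.prime_dvd_prime_iff_eq hq hp).mp e)
    intro h0
    have hl := leadingCoeff_preΨ' (W.map (Int.castRingHom (ZMod q))) hpK
    rw [map_preΨ', h0, leadingCoeff_zero, if_neg (Nat.not_even_iff_odd.mpr (hp.odd_of_ne_two hp2))]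
      at hl
    exact hpK hl.symm

/-- The division polynomials of index at least three vanish at the node modulo `q`. -/
theorem dvd_eval_preΨ' {q : ℕ} (hq : q.Prime) {r t : ℤ} (H : IsNodeShift W q r t) {n : ℕ}
    (hn : 3 ≤ n) : (q : ℤ) ∣ (W.preΨ' n).eval r := by
  have := Fact.mk hq
  set V := Fermat.EC.trans r t • W with hV
  have hd : ∀ {z : ℤ}, (q : ℤ) ^ (padicValInt q W.Δ + 1) ∣ z → (q : ℤ) ∣ z := fun hz =>
    (dvd_pow_self _ (Nat.succ_ne_zero _)).trans hz
  set φ := Int.castRingHom (ZMod q) with hφ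
  have key : ∀ {z : ℤ}, (q : ℤ) ∣ z → φ z = 0 := fun hz => by
    rw [hφ, eq_intCast, ZMod.intCast_zmod_eq_zero_iff_dvd]; exact hz
  have v3 := key (hd H.a₃)
  have v4 := key (hd H.a₄)
  have v6 := key H.a₆
  rw [← hV] at v3 v4 v6
  have b6 : φ V.b₆ = 0 := by
    simp only [WeierstrassCurve.b₆, map_add, map_mul, map_pow, _root_.map_ofNat, v3, v6]; ring
  have b8 : φ V.b₈ = 0 := by
    simp only [WeierstrassCurve.b₈, map_add, map_sub, map_mul, map_pow, _root_.map_ofNat, v3, v4,
      v6]; ring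
  have e2 : (W.map φ).Ψ₂Sq.eval (r : ZMod q) = φ V.b₆ := by
    simp only [hV, Fermat.EC.trans, WeierstrassCurve.Ψ₂Sq, variableChange_b₆, map_b₂,
      map_b₄, map_b₆, eval_add, eval_mul, eval_pow, eval_X, eval_C, eval_ofNat, map_add, map_mul,
      map_pow, _root_.map_ofNat, inv_one, Units.val_one, one_pow, one_mul, hφ, eq_intCast]
    ring
  have e3 : (W.map φ).Ψ₃.eval (r : ZMod q) = φ V.b₈ := by
    simp only [hV, Fermat.EC.trans, WeierstrassCurve.Ψ₃, variableChange_b₈, map_b₂, map_b₄, map_b₆,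
      map_b₈, eval_add, eval_mul, eval_pow, eval_X, eval_C, eval_ofNat, map_add, map_mul, map_pow,
      _root_.map_ofNat, inv_one, Units.val_one, one_pow, one_mul, hφ, eq_intCast]
    ring
  have h1 := Fermat.SW.Ram.preΨ'_eval_node (W.map φ) (e3.trans b8) (e2.trans b6) n hn
  rw [map_preΨ', show ((r : ZMod q)) = φ r from (eq_intCast φ r).symm, eval_map,
    eval₂_at_apply] at h1
  rw [← ZMod.intCast_zmod_eq_zero_iff_dvd, ← eq_intCast φ]
  exact h1

/-- **Some `p`-torsion point has singular reduction.** -/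
theorem exists_not_inE0 (hΔ : W.Δ ≠ 0) {q : ℕ} {A : ValuationSubring ℚbar} (h : IsPlace A q)
    (hbad : (q : ℤ) ∣ W.Δ) (hc : ¬ (q : ℤ) ∣ W.c₄) {p : ℕ} (hp : p.Prime) (hp2 : p ≠ 2) :
    ∃ P : (overQbar W).Point, p • P = 0 ∧ ¬ InE0 A q P := by
  classical
  by_contra hall
  push Not at hall
  obtain ⟨r, t, H⟩ := exists_nodeShift W h.1 hbad hc
  obtain ⟨X₀, hfac, hpts⟩ := exists_factor hΔ hp hp2
  have hp3 : 3 ≤ p := by have := hp.two_le; omega
  have hdvd := dvd_eval_preΨ' h.1 H hp3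
  have hN := H.isNodal h hΔ hbad
  set CV : VariableChange ℚbar := ⟨1, (r : ℚbar), 0, (t : ℚbar)⟩ with hCV
  -- an integral root is not congruent to the node
  have hfar : ∀ x ∈ X₀, Ge A q x 0 → Is A q ((r : ℚbar) - x) 0 := by
    intro x hx hx0
    refine (ge_intCast h r).sub h hx0 |>.is_of_not_gt fun hgt => ?_
    obtain ⟨P, hP1, hP2, rfl⟩ := hpts x hx
    rcases P with _ | ⟨a, b, hns⟩
    · exact hP2 rfl
    have hnx : newX CV a = a - (r : ℚbar) := by simp [hCV, newX]
    have gx : Gt A q (newX CV a) 0 := by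
      rw [hnx, ← neg_sub]; exact hgt.neg h
    have hns₁ := nonsingular_new CV (overQbar W) hns
    set X := newX CV a with hXdef
    set Y := newY CV a b with hYdef
    set U := changed CV (overQbar W) with hU
    have gY := ge_y h hN.int hns₁.1 gx.ge
    have gy : Gt A q Y 0 := by
      by_contra hn
      have hI := (gY.is_of_not_gt hn).pow h 2
      simp only [mul_zero] at hI
      have he := (equation_iff _ _).mp hns₁.1
      have e : Y ^ 2 = X * (X ^ 2 + U.a₂ * X + U.a₄ - U.a₁ * Y) + (U.a₆ - U.a₃ * Y) := by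
        linear_combination he
      have c : Ge A q (X ^ 2 + U.a₂ * X + U.a₄ - U.a₁ * Y) 0 :=
        ((((gx.ge.pow h 2).mono (by simp)).add h ((hN.int.a₂.mul h gx.ge).mono (by simp))).add h
          hN.int.a₄).sub h ((hN.int.a₁.mul h gY).mono (by simp))
      refine hI.not_gt ?_
      rw [e]
      exact ((gx.mul_ge h c).mono (by simp)).add h ((hN.a₆.gt hN.mpos).sub h
        (((hN.a₃.gt (hN.mpos.trans hN.mM)).mul_ge h gY).mono (by simp)))
    refine (inE0_pointHom W h (r := r) (t := t) _).mpr (hall _ hP1) ?_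
    exact singRed_of_gt h hN gx gy
  -- orders of the nonintegral roots
  have hpK : ((p : ℕ) : ℚbar) ≠ 0 := Nat.cast_ne_zero.mpr hp.ne_zero
  obtain ⟨h1, -⟩ := ord_nonintegral_roots h (W.preΨ' p) (preΨ'_mod_ne_zero h.1 hp hp2 hc)
    (p : ℚbar) hpK X₀ _ (fun x => Finset.mem_filter) hfac
  have hterm : ∀ x ∈ X₀, Is A q ((r : ℚbar) - x) (if ¬ Ge A q x 0 then ord A q x else 0) := by
    intro x hx
    by_cases hx0 : Ge A q x 0
    · rw [if_neg (not_not.mpr hx0)]; exact hfar x hx hx0
    · rw [if_pos hx0]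
      have hne : x ≠ 0 := fun e => hx0 (Or.inl e)
      have hlt : ord A q x < 0 := by
        rw [Ge, not_or, not_le] at hx0; exact hx0.2
      rw [sub_eq_add_neg, add_comm]
      exact ((is_ord hne).neg h).add h ((ge_intCast h r).gt hlt)
  have hprod : Is A q ((p : ℚbar) * ∏ x ∈ X₀, ((r : ℚbar) - x)) 0 := by
    have := (is_ord (A := A) (q := q) hpK).mul h (Is.prod h hterm)
    rwa [← Finset.sum_filter, h1] at this
  have he := congrArg (Polynomial.eval (r : ℚbar)) hfac
  rw [eval_map, show (r : ℚbar) = Int.castRingHom ℚbar r from (eq_intCast _ r).symm, eval₂_at_apply,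
    eval_mul, eval_C, eval_prod, eq_intCast, eq_intCast] at he
  simp only [eval_sub, eval_X, eval_C] at he
  rw [← he] at hprod
  exact hprod.not_gt ((ge_intCast_of_dvd h (k := 1) (by simpa using hdvd)).gt (by norm_num))

end Fermat.GR.CurveRep

end
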