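import Fermat.Agent.GR.CurveRep.Triangular
import Fermat.Agent.GR.CurveRep.Flat

/-!
# The `p`-adic representation of a semistable curve exists

`curveRepInput` proves `CurveRepInput p` for every prime `p`.
-/

set_option autoImplicit false

noncomputable section

open Fermat.GR.RT

namespace Fermat.GR.CurveRep

/-- The `p`-adic representation of a semistable curve satisfies the input of lifting. -/
theorem curveRepInput (p : ℕ) [Fact p.Prime] : CurveRepInput p := by
  intro hp W hW hss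
  have hp2 : p ≠ 2 := by omega
  refine ⟨rho p hW, ⟨matCont_rho p hW, det_rho hp, trace_rho, ?_, ?_, ?_, ?_⟩⟩
  · intro ℓ hℓ hℓp hgood A hA
    exact ⟨fun σ hσ => rho_inertia_good hℓ hℓp hgood hA hσ,
      fun φ hφ => trace_frobenius hp hℓ hℓp hgood hA hφ⟩
  · intro ℓ hℓ hℓp hbad
    obtain ⟨r, t, H⟩ := exists_nodeShift W hℓ hbad (hss ℓ hℓ hbad)
    refine ⟨(splitSign W ℓ r t : ℤ_[p]), by
      exact_mod_cast congrArg (Int.cast (R := ℤ_[p])) (splitSign_sq W ℓ r t), fun A hA => ⟨?_, ?_⟩⟩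
    · exact fun σ hσ => unipotent_rho ⟨hℓ, hA⟩ hℓp (hss ℓ hℓ) hp2 hσ
    · exact fun φ hφ => trace_frobenius_node ⟨hℓ, hA⟩ hℓp hp hbad (hss ℓ hℓ hbad) H hφ
  · exact fun hgood => isFlatAt_rho hW hgood _
  · intro hbad A hA
    have hpp : p.Prime := Fact.out
    obtain ⟨r, t, H⟩ := exists_nodeShift W hpp hbad (hss p hpp hbad)
    obtain ⟨P, h1, h2, h3⟩ :=
      exists_triangular (p := p) hW ⟨hpp, hA⟩ hbad (hss p hpp hbad) hp2 H
    refine ⟨P, h1, h2, fun φ hφ => ?_⟩
    rw [h3 φ hφ]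
    exact_mod_cast congrArg (Int.cast (R := ℤ_[p])) (splitSign_sq W p r t)

end Fermat.GR.CurveRep

end
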