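import Fermat.Agent.GR.RT.LiftInputs
import Fermat.Agent.SW.TorsionRep
import Fermat.Agent.EC.TorsionLine

/-!
# The `p`-adic representation of a curve by compatible bases of the `p^n`-torsion

`pt hW n` sends `v : ℤ_p²` to the combination of the chosen basis of `E[p^n]`; `rho` is the
representation for which `pt hW n (rho σ v) = σ • pt hW n v`.
-/

set_option autoImplicit false

noncomputable section

open WeierstrassCurve.Affine Fermat.EC Fermat.SW Fermat.EC.Line

namespace Fermat.GR.CurveRep

local notation "ℚbar" => AlgebraicClosure ℚ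
local notation "Γℚ" => (AlgebraicClosure ℚ ≃ₐ[ℚ] AlgebraicClosure ℚ)
local notation "M2" R => Matrix (Fin 2) (Fin 2) R

variable {W : WeierstrassCurve ℤ} {p : ℕ} [hp : Fact p.Prime]

/-- The multiples of a point killed by `n`. -/
def mulRes (n : ℕ) (R : (overQbar W).Point) (hR : n • R = 0) : ZMod n →+ (overQbar W).Point :=
  ZMod.lift n ⟨zmultiplesHom _ R, by rw [zmultiplesHom_apply, natCast_zsmul, hR]⟩

/-- `mulRes` multiplies by the representative. -/
theorem mulRes_apply (n : ℕ) [NeZero n] (R : (overQbar W).Point) (hR : n • R = 0) (c : ZMod n) :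
    mulRes n R hR c = c.val • R := by
  have h : mulRes n R hR ((c.val : ℤ) : ZMod n) = c.val • R := by
    rw [mulRes, ZMod.lift_coe]
    change zmultiplesHom _ R (c.val : ℤ) = c.val • R
    rw [zmultiplesHom_apply, natCast_zsmul]
  rwa [Int.cast_natCast, ZMod.natCast_zmod_val] at h

/-- Multiplication by `p` is onto from level `n + 1` to level `n`. -/
theorem exists_div (hW : W.Δ ≠ 0) (n : ℕ) {R : (overQbar W).Point} (hR : p ^ n • R = 0) :
    ∃ S : (overQbar W).Point, p • S = R := by
  classical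
  have hpp : ∀ k, 1 ≤ p ^ k := fun k => Nat.one_le_pow _ _ hp.out.pos
  let f : tors W (p ^ (n + 1)) →+ tors W (p ^ n) :=
    { toFun := fun x => ⟨p • x.1, by
        rw [mem_tors, ← mul_nsmul', ← pow_succ]; exact mem_tors.mp x.2⟩
      map_zero' := Subtype.ext (nsmul_zero p)
      map_add' := fun x y => Subtype.ext (nsmul_add x.1 y.1 p) }
  have : ∀ k, Finite (tors W (p ^ k)) := fun k =>
    Nat.finite_of_card_ne_zero (by
      rw [natCard_tors hW (hpp k)]; exact pow_ne_zero _ (pow_ne_zero _ hp.out.ne_zero))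
  have : Finite (tors W p) := Nat.finite_of_card_ne_zero (by
    rw [natCard_tors hW hp.out.one_le]; exact pow_ne_zero _ hp.out.ne_zero)
  -- compare the sizes of kernel and image
  have hker : Nat.card f.ker ≤ p ^ 2 := by
    rw [← natCard_tors hW hp.out.one_le]
    refine Nat.card_le_card_of_injective
      (fun x => (⟨x.1.1, congrArg Subtype.val ((AddMonoidHom.mem_ker).mp x.2)⟩ : tors W p)) ?_
    intro x y e
    exact Subtype.ext (Subtype.ext (congrArg (fun z : tors W p => z.1) e))
  have hmul := AddSubgroup.card_eq_card_quotient_mul_card_addSubgroup f.ker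
  rw [Nat.card_congr (QuotientAddGroup.quotientKerEquivRange f).toEquiv,
    natCard_tors hW (hpp (n + 1))] at hmul
  have htop : f.range = ⊤ := by
    refine AddSubgroup.eq_top_of_card_eq _ (le_antisymm ?_ ?_)
    · exact Nat.card_le_card_of_injective _ Subtype.val_injective
    · rw [natCard_tors hW (hpp n)]
      have h1 : (p ^ (n + 1)) ^ 2 ≤ Nat.card f.range * p ^ 2 :=
        hmul ▸ Nat.mul_le_mul_left _ hker
      rw [show (p ^ (n + 1)) ^ 2 = (p ^ n) ^ 2 * p ^ 2 by ring] at h1
      exact Nat.le_of_mul_le_mul_right h1 (pow_pos hp.out.pos 2)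
  obtain ⟨S, hS⟩ : (⟨R, mem_tors.mpr hR⟩ : tors W (p ^ n)) ∈ f.range :=
    htop ▸ AddSubgroup.mem_top _
  exact ⟨S.1, congrArg Subtype.val hS⟩

open Classical in
/-- A chosen `p`-th part of a point. -/
def divP (p : ℕ) (R : (overQbar W).Point) : (overQbar W).Point :=
  if h : ∃ S : (overQbar W).Point, p • S = R then h.choose else 0

variable (p) in
/-- Compatible points generating the `p`-power torsion. -/
def seq (hW : W.Δ ≠ 0) (j : Fin 2) : ℕ → (overQbar W).Point
  | 0 => 0
  | 1 => ((Tors.tbasis (p := p) W hW j : TorW (modQ W) p) : (overQbar W).Point)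
  | n + 2 => divP p (seq hW j (n + 1))

/-- The chosen points form a compatible system of `p ^ n`-torsion. -/
theorem seq_spec (hW : W.Δ ≠ 0) (j : Fin 2) :
    ∀ n, p ^ n • seq p hW j n = 0 ∧ p • seq p hW j (n + 1) = seq p hW j n := by
  intro n
  induction n with
  | zero =>
    refine ⟨?_, ?_⟩
    · rw [seq, nsmul_zero]
    · change p • ((Tors.tbasis (p := p) W hW j : TorW (modQ W) p) : (overQbar W).Point) = 0
      rw [← natCast_zsmul]
      exact (Submodule.mem_torsionBy_iff _ _).mp (Tors.tbasis (p := p) W hW j).2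
  | succ n ih =>
    have h1 : p ^ (n + 1) • seq p hW j (n + 1) = 0 := by
      rw [pow_succ, mul_nsmul', ih.2, ih.1]
    refine ⟨h1, ?_⟩
    have hex := exists_div hW (n + 1) h1
    rw [seq, divP, dif_pos hex]
    exact hex.choose_spec

variable (p) in
/-- The combination of the basis at level `n`. -/
def pt (hW : W.Δ ≠ 0) (n : ℕ) : (Fin 2 → ℤ_[p]) →+ (overQbar W).Point :=
  ∑ j : Fin 2, ((mulRes (p ^ n) (seq p hW j n) (seq_spec hW j n).1).comp
    (PadicInt.toZModPow (p := p) n).toAddMonoidHom).comp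
      (Pi.evalAddMonoidHom (fun _ : Fin 2 => ℤ_[p]) j)

variable {hW : W.Δ ≠ 0}

/-- `pt` is the combination of the chosen points with the coefficients modulo `p ^ n`. -/
theorem pt_apply (n : ℕ) (v : Fin 2 → ℤ_[p]) :
    pt p hW n v = ∑ j, (PadicInt.toZModPow n (v j)).val • seq p hW j n := by
  have : NeZero (p ^ n) := ⟨pow_ne_zero _ hp.out.ne_zero⟩
  simp only [pt, AddMonoidHom.finsetSum_apply, AddMonoidHom.comp_apply, Pi.evalAddMonoidHom_apply,
    RingHom.toAddMonoidHom_eq_coe, AddMonoidHom.coe_coe, mulRes_apply]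

/-- The points of level `n` are killed by `p ^ n`. -/
theorem pow_nsmul_pt (n : ℕ) (v : Fin 2 → ℤ_[p]) : p ^ n • pt p hW n v = 0 := by
  rw [pt_apply, Finset.smul_sum]
  exact Finset.sum_eq_zero fun j _ => by
    rw [← mul_nsmul', mul_comm, mul_nsmul', (seq_spec hW j n).1, nsmul_zero]

/-- Multiples of a point killed by `n` depend only on the residue modulo `n`. -/
theorem nsmul_congr_mod {n a b : ℕ} {R : (overQbar W).Point} (hR : n • R = 0)
    (h : (a : ZMod n) = (b : ZMod n)) : a • R = b • R := by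
  have key : ∀ k, k • R = (k % n) • R := fun k => by
    conv_lhs => rw [← Nat.mod_add_div k n]
    rw [add_nsmul, mul_comm, mul_nsmul', hR, nsmul_zero, add_zero]
  rw [key a, key b, (ZMod.natCast_eq_natCast_iff' a b n).mp h]

/-- Multiplication by `p` lowers the level by one. -/
theorem nsmul_pt_succ (n : ℕ) (v : Fin 2 → ℤ_[p]) : p • pt p hW (n + 1) v = pt p hW n v := by
  have : NeZero (p ^ n) := ⟨pow_ne_zero _ hp.out.ne_zero⟩
  have : NeZero (p ^ (n + 1)) := ⟨pow_ne_zero _ hp.out.ne_zero⟩
  rw [pt_apply, pt_apply, Finset.smul_sum]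
  refine Finset.sum_congr rfl fun j _ => ?_
  rw [← mul_nsmul', mul_comm, mul_nsmul', (seq_spec hW j n).2]
  refine nsmul_congr_mod (seq_spec hW j n).1 ?_
  rw [ZMod.natCast_zmod_val, ← PadicInt.cast_toZModPow n (n + 1) (Nat.le_succ n) (v j),
    ZMod.natCast_val]

/-- Multiplication by `p ^ k` lowers the level by `k`. -/
theorem pow_nsmul_pt_add (n k : ℕ) (v : Fin 2 → ℤ_[p]) :
    p ^ k • pt p hW (n + k) v = pt p hW n v := by
  induction k with
  | zero => rw [pow_zero, one_nsmul, add_zero]
  | succ k ih =>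
    rw [pow_succ, mul_nsmul', ← Nat.add_assoc, nsmul_pt_succ, ih]

/-- At level one `pt` combines the basis with the residues modulo `p`. -/
theorem pt_one_apply (v : Fin 2 → ℤ_[p]) :
    pt p hW 1 v = ∑ j, (PadicInt.toZMod (v j)).val •
      ((Tors.tbasis (p := p) W hW j : TorW (modQ W) p) : (overQbar W).Point) := by
  have : NeZero (p ^ 1) := ⟨pow_ne_zero _ hp.out.ne_zero⟩
  rw [pt_apply]
  refine Finset.sum_congr rfl fun j _ => ?_
  change _ • seq p hW j 1 = _ • seq p hW j 1
  refine nsmul_congr_mod (seq_spec hW j 1).1 ?_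
  rw [ZMod.natCast_zmod_val, ← map_natCast (PadicInt.toZModPow (p := p) 1)]
  rw [← sub_eq_zero, ← map_sub, ← RingHom.mem_ker, PadicInt.ker_toZModPow, pow_one,
    ← PadicInt.maximalIdeal_eq_span_p, ← PadicInt.ker_toZMod, RingHom.mem_ker, map_sub,
    map_natCast, ZMod.natCast_zmod_val, sub_self]

/-- A scalar of `ZMod p` acts on a torsion point by its representative. -/
theorem coe_smul_tor (c : ZMod p) (x : TorW (modQ W) p) :
    ((c • x : TorW (modQ W) p) : (overQbar W).Point) = c.val • (x : (overQbar W).Point) := by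
  have : NeZero p := ⟨hp.out.ne_zero⟩
  conv_lhs => rw [← ZMod.natCast_zmod_val c]
  rw [Nat.cast_smul_eq_nsmul, Submodule.coe_smul_of_tower]

/-- A vector vanishing at level one is divisible by `p`. -/
theorem dvd_of_pt_one_eq_zero {v : Fin 2 → ℤ_[p]} (h : pt p hW 1 v = 0) (j : Fin 2) :
    (p : ℤ_[p]) ∣ v j := by
  rw [pt_one_apply] at h
  have h2 : ∑ i, PadicInt.toZMod (v i) • Tors.tbasis (p := p) W hW i = 0 := by
    apply Subtype.ext
    rw [Submodule.coe_sum]
    simp only [coe_smul_tor]
    exact h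
  have h3 := Fintype.linearIndependent_iff.mp (Tors.tbasis (p := p) W hW).linearIndependent _ h2 j
  rwa [← RingHom.mem_ker, PadicInt.ker_toZMod, PadicInt.maximalIdeal_eq_span_p,
    Ideal.mem_span_singleton] at h3

/-- A vector vanishing at level `n` is divisible by `p ^ n`. -/
theorem dvd_of_pt_eq_zero : ∀ (n : ℕ) (v : Fin 2 → ℤ_[p]), pt p hW n v = 0 →
    ∀ j, (p : ℤ_[p]) ^ n ∣ v j := by
  intro n
  induction n with
  | zero => exact fun v _ j => by rw [pow_zero]; exact one_dvd _
  | succ n ih =>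
    intro v hv j
    have h0 : pt p hW n v = 0 := by rw [← nsmul_pt_succ, hv, nsmul_zero]
    choose w hw using ih v h0
    have e : v = p ^ n • w := by
      ext i; rw [hw i, Pi.smul_apply, nsmul_eq_mul, Nat.cast_pow]
    have h1 : pt p hW 1 w = 0 := by
      rw [← pow_nsmul_pt_add 1 n, Nat.add_comm, ← map_nsmul, ← e, hv]
    obtain ⟨d, hd⟩ := dvd_of_pt_one_eq_zero h1 j
    exact ⟨d, by rw [hw j, hd, pow_succ, mul_assoc]⟩

/-- Every `p ^ n`-torsion point comes from a vector over `ℤ_p`. -/
theorem exists_pt : ∀ (n : ℕ) (R : (overQbar W).Point), p ^ n • R = 0 →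
    ∃ v : Fin 2 → ℤ_[p], pt p hW n v = R := by
  intro n
  induction n with
  | zero => exact fun R hR => ⟨0, by rw [map_zero, ← hR, pow_zero, one_nsmul]⟩
  | succ n ih =>
    intro R hR
    obtain ⟨v, hv⟩ := ih (p • R) (by rw [← mul_nsmul', ← pow_succ]; exact hR)
    -- correct a lift of `p • R` by a point of order `p`
    set D := R - pt p hW (n + 1) v with hD
    have hpD : p • D = 0 := by rw [hD, nsmul_sub, nsmul_pt_succ, hv, sub_self]
    let x : TorW (modQ W) p := ⟨D, (Submodule.mem_torsionBy_iff _ _).mpr (by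
      rw [natCast_zsmul]; exact hpD)⟩
    let w : Fin 2 → ℤ_[p] := fun j => (((Tors.tbasis (p := p) W hW).repr x j).val : ℤ_[p])
    have hx : pt p hW 1 w = D := by
      have e := congrArg (fun z : TorW (modQ W) p => (z : (overQbar W).Point))
        ((Tors.tbasis (p := p) W hW).sum_repr x)
      simp only [Submodule.coe_sum, coe_smul_tor] at e
      rw [pt_one_apply]
      refine Eq.trans (Finset.sum_congr rfl fun j _ => ?_) e
      simp [w]
    refine ⟨v + p ^ n • w, ?_⟩
    rw [map_add, map_nsmul, Nat.add_comm n 1, pow_nsmul_pt_add, hx, Nat.add_comm 1 n, hD]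
    abel

/-- Vanishing modulo `p ^ n` is divisibility by `p ^ n`. -/
theorem toZModPow_eq_zero_iff {n : ℕ} {x : ℤ_[p]} :
    PadicInt.toZModPow n x = 0 ↔ (p : ℤ_[p]) ^ n ∣ x := by
  rw [← RingHom.mem_ker, PadicInt.ker_toZModPow, Ideal.mem_span_singleton]

/-- A vector is determined by its points at all levels. -/
theorem ext_pt {v w : Fin 2 → ℤ_[p]} (h : ∀ n, pt p hW n v = pt p hW n w) : v = w := by
  ext j
  refine PadicInt.ext_of_toZModPow.mp fun n => sub_eq_zero.mp ?_
  rw [← map_sub, toZModPow_eq_zero_iff]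
  exact dvd_of_pt_eq_zero n (v - w) (by rw [map_sub, h, sub_self]) j

/-- The powers of the maximal ideal of `ℤ_p` are generated by the powers of `p`. -/
theorem mem_pow_iff {n : ℕ} {x : ℤ_[p]} :
    x ∈ IsLocalRing.maximalIdeal ℤ_[p] ^ n ↔ (p : ℤ_[p]) ^ n ∣ x := by
  rw [PadicInt.maximalIdeal_eq_span_p, Ideal.span_singleton_pow, Ideal.mem_span_singleton]

/-- Compatible torsion points come from one vector. -/
theorem exists_lim (R : ℕ → (overQbar W).Point) (h0 : ∀ n, p ^ n • R n = 0)
    (h : ∀ n, p • R (n + 1) = R n) : ∃ v : Fin 2 → ℤ_[p], ∀ n, pt p hW n v = R n := by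
  choose v hv using fun n => exists_pt (hW := hW) n (R n) (h0 n)
  have hR : ∀ m k, p ^ k • R (m + k) = R m := by
    intro m k
    induction k with
    | zero => rw [pow_zero, one_nsmul, add_zero]
    | succ k ih => rw [pow_succ, mul_nsmul', ← Nat.add_assoc, h, ih]
  have hc : ∀ {m n : ℕ}, m ≤ n → ∀ j, v m j ≡ v n j
      [SMOD (IsLocalRing.maximalIdeal ℤ_[p] ^ m • ⊤ : Submodule ℤ_[p] ℤ_[p])] := by
    intro m n hmn j
    obtain ⟨k, rfl⟩ := Nat.exists_eq_add_of_le hmn
    rw [SModEq.sub_mem, smul_eq_mul, Ideal.mul_top, mem_pow_iff]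
    refine dvd_of_pt_eq_zero (hW := hW) m (v m - v (m + k)) ?_ j
    rw [map_sub, hv, ← pow_nsmul_pt_add m k (v (m + k)), hv, hR, sub_self]
  -- the vectors of the levels converge in `ℤ_p`
  choose L hL using fun j => IsPrecomplete.prec (I := IsLocalRing.maximalIdeal ℤ_[p])
    (inferInstance : IsPrecomplete (IsLocalRing.maximalIdeal ℤ_[p]) ℤ_[p])
    (f := fun n => v n j) (fun hmn => hc hmn j)
  refine ⟨L, fun n => ?_⟩
  have : NeZero (p ^ n) := ⟨pow_ne_zero _ hp.out.ne_zero⟩
  rw [← hv n, pt_apply, pt_apply]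
  refine Finset.sum_congr rfl fun j _ => ?_
  congr 2
  rw [← sub_eq_zero, ← map_sub, toZModPow_eq_zero_iff]
  have := hL j n
  rw [SModEq.sub_mem, smul_eq_mul, Ideal.mul_top, mem_pow_iff] at this
  rwa [← neg_sub, dvd_neg] at this

/-- `pt` is compatible with scalars, acting through their residues. -/
theorem pt_smul (n : ℕ) (c : ℤ_[p]) (v : Fin 2 → ℤ_[p]) :
    pt p hW n (c • v) = (PadicInt.toZModPow n c).val • pt p hW n v := by
  have : NeZero (p ^ n) := ⟨pow_ne_zero _ hp.out.ne_zero⟩
  set k := (PadicInt.toZModPow n c).val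
  obtain ⟨d, hd⟩ : (p : ℤ_[p]) ^ n ∣ c - k := by
    rw [← toZModPow_eq_zero_iff, map_sub, map_natCast, ZMod.natCast_zmod_val, sub_self]
  rw [show c • v = k • v + p ^ n • (d • v) by
    ext i
    simp only [Pi.add_apply, Pi.smul_apply]
    simp only [smul_eq_mul, nsmul_eq_mul, Nat.cast_pow]
    linear_combination (v i) * hd]
  rw [map_add, map_nsmul, map_nsmul, pow_nsmul_pt, add_zero]

/-- Galois as an additive map of points. -/
def galAdd (σ : Γℚ) : (overQbar W).Point →+ (overQbar W).Point :=
  DistribSMul.toAddMonoidHom (overQbar W).Point σ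

/-- `galAdd` is the Galois action. -/
theorem galAdd_apply (σ : Γℚ) (R : (overQbar W).Point) : galAdd σ R = σ • R := rfl

/-- The image of a basis vector under a Galois element comes from a vector. -/
theorem exists_col (hW : W.Δ ≠ 0) (σ : Γℚ) (j : Fin 2) :
    ∃ v : Fin 2 → ℤ_[p], ∀ n, pt p hW n v = σ • seq p hW j n :=
  exists_lim _ (fun n => by rw [← gal_smul_nsmul, (seq_spec hW j n).1, gal_smul_zero])
    (fun n => by rw [← gal_smul_nsmul, (seq_spec hW j n).2])

variable (p) in
/-- The image of a basis vector. -/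
def col (hW : W.Δ ≠ 0) (σ : Γℚ) (j : Fin 2) : Fin 2 → ℤ_[p] := (exists_col hW σ j).choose

/-- The chosen image of a basis vector has the Galois conjugates as points. -/
theorem pt_col (σ : Γℚ) (j : Fin 2) (n : ℕ) : pt p hW n (col p hW σ j) = σ • seq p hW j n :=
  (exists_col hW σ j).choose_spec n

/-- The matrix of the images of the basis vectors realises the Galois action. -/
theorem pt_mulVec_of (σ : Γℚ) (n : ℕ) (v : Fin 2 → ℤ_[p]) :
    pt p hW n ((Matrix.of fun i j => col p hW σ j i).mulVec v) = σ • pt p hW n v := by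
  rw [show (Matrix.of fun i j => col p hW σ j i).mulVec v = ∑ j, v j • col p hW σ j by
    ext i; simp [Matrix.mulVec, dotProduct, Finset.sum_apply, mul_comm]]
  rw [pt_apply n v, ← galAdd_apply σ (∑ j, _), map_sum, map_sum]
  refine Finset.sum_congr rfl fun j _ => ?_
  rw [pt_smul, pt_col, map_nsmul, galAdd_apply]

variable (p) in
/-- **The `p`-adic representation.** The action of Galois on the compatible systems of `p`-power
torsion points, as matrices over `ℤ_p`. -/
def rho (hW : W.Δ ≠ 0) : Γℚ →* M2 ℤ_[p] where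
  toFun σ := Matrix.of fun i j => col p hW σ j i
  map_one' := Matrix.ext_iff_mulVec.mpr fun v => ext_pt (hW := hW) fun n => by
    rw [pt_mulVec_of, one_smul, Matrix.one_mulVec]
  map_mul' σ τ := Matrix.ext_iff_mulVec.mpr fun v => ext_pt (hW := hW) fun n => by
    rw [pt_mulVec_of, mul_smul, ← Matrix.mulVec_mulVec, pt_mulVec_of, pt_mulVec_of]

/-- `rho` realises the Galois action on the points. -/
theorem pt_rho (σ : Γℚ) (n : ℕ) (v : Fin 2 → ℤ_[p]) :
    pt p hW n ((rho p hW σ).mulVec v) = σ • pt p hW n v := pt_mulVec_of σ n v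

/-- Congruences between matrices are read off on torsion. -/
theorem dvd_of_forall_pt {n : ℕ} {M : M2 ℤ_[p]}
    (h : ∀ v, pt p hW n (M.mulVec v) = 0) (i j : Fin 2) : (p : ℤ_[p]) ^ n ∣ M i j := by
  have := dvd_of_pt_eq_zero n _ (h (Pi.single j 1)) i
  simpa [Matrix.mulVec_single] using this

/-- A matrix killing all torsion is zero. -/
theorem eq_zero_of_forall_pt {M : M2 ℤ_[p]} (h : ∀ n v, pt p hW n (M.mulVec v) = 0) : M = 0 :=
  Matrix.ext_iff_mulVec.mpr fun v => ext_pt (hW := hW) fun n => by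
    rw [h, Matrix.zero_mulVec, map_zero]

/-- Modulo `p` it is the residual representation. -/
theorem toZMod_rho (σ : Γℚ) (i j : Fin 2) :
    PadicInt.toZMod (rho p hW σ i j) =
      (Tors.tRep (p := p) W hW σ : Matrix (Fin 2) (Fin 2) (ZMod p)) i j := by
  rw [Tors.val_tRep, LinearMap.toMatrixAlgEquiv_apply]
  set B := Tors.tbasis (p := p) W hW
  set x : TorW (modQ W) p := Point.galoisRepModuleEnd (K := ℚbar) ℚ (modQ W).toAffine p σ (B j)
    with hx
  have e : (∑ k, PadicInt.toZMod (rho p hW σ k j) • B k : TorW (modQ W) p) = x := by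
    apply Subtype.ext
    rw [Submodule.coe_sum]
    simp only [coe_smul_tor]
    exact (pt_one_apply (hW := hW) (col p hW σ j)).symm.trans (pt_col σ j 1)
  rw [← e, B.repr_sum_self]

/-- The trace reduces to that of the residual representation. -/
theorem trace_rho (σ : Γℚ) : PadicInt.toZMod (rho p hW σ).trace =
    (Tors.tRep (p := p) W hW σ : Matrix (Fin 2) (Fin 2) (ZMod p)).trace := by
  simp only [Matrix.trace, Matrix.diag, map_sum, toZMod_rho]

variable (p) in
/-- The representation of the curve is continuous. -/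
theorem matCont_rho (hW : W.Δ ≠ 0) : Fermat.GR.MatCont (rho p hW) := by
  intro n
  classical
  let co : (overQbar W).Point → Finset ℚbar := fun P =>
    match P with
    | .zero => ∅
    | .some x y _ => {x, y}
  set S : Finset ℚbar := Finset.univ.biUnion fun j : Fin 2 => co (seq p hW j n)
  refine ⟨IntermediateField.adjoin ℚ (S : Set ℚbar), IntermediateField.finiteDimensional_adjoin
    fun x _ => (Algebra.IsAlgebraic.isAlgebraic x).isIntegral, fun σ hσ i j => ?_⟩
  rw [mem_pow_iff]
  have hfix : ∀ k, σ • seq p hW k n = seq p hW k n := by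
    intro k
    rcases hP : seq p hW k n with _ | ⟨a, b, hns⟩
    · rfl
    · simp only [Point.algEquiv_smul_def, Point.map_some, Point.some.injEq]
      have hS : ∀ z ∈ co (seq p hW k n), σ z = z := fun z hz =>
        hσ z (IntermediateField.subset_adjoin ℚ _ (Finset.mem_biUnion.mpr ⟨k,
          Finset.mem_univ _, hz⟩))
      rw [hP] at hS
      exact ⟨hS a (by simp [co]), hS b (by simp [co])⟩
  refine dvd_of_forall_pt (hW := hW) (fun v => ?_) i j
  rw [Matrix.sub_mulVec, Matrix.one_mulVec, map_sub, pt_rho, sub_eq_zero, pt_apply,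
    ← galAdd_apply, map_sum]
  exact Finset.sum_congr rfl fun k _ => by rw [map_nsmul, galAdd_apply, hfix]

end Fermat.GR.CurveRep

end
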