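import Fermat.Agent.GR.CurveRep.Det
import Fermat.Agent.GR.CurveRep.NodeTorsion

/-!
# Multiplicative reduction: the representation is triangular on the decomposition group

The vectors all whose levels have nonsingular reduction lie in a line, and `τ - ε` maps into it.
-/

set_option autoImplicit false

noncomputable section

open Fermat.EC Fermat.EC.Val Fermat.EC.Red Fermat.GR.RT

namespace Fermat.GR.CurveRep

local notation "ℚbar" => AlgebraicClosure ℚ
local notation "Γℚ" => (AlgebraicClosure ℚ ≃ₐ[ℚ] AlgebraicClosure ℚ)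
local notation "M2" R => Matrix (Fin 2) (Fin 2) R

variable {W : WeierstrassCurve ℤ} {p : ℕ} [hp : Fact p.Prime] {hW : W.Δ ≠ 0}
  {A : ValuationSubring ℚbar} {q : ℕ}

variable (p A q) in
/-- The vectors with nonsingular reduction at every level. -/
def nsVec (hW : W.Δ ≠ 0) (h : IsPlace A q) : Submodule ℤ_[p] (Fin 2 → ℤ_[p]) where
  carrier := {v | ∀ n, InE0 A q (pt p hW n v)}
  add_mem' := fun {v w} hv hw n => by
    rw [map_add]; exact (hv n).add h (integralAt_overQbar W h) (hw n)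
  zero_mem' := fun n => by rw [map_zero]; trivial
  smul_mem' := fun c v hv n => by
    rw [pt_smul]; exact (hv n).nsmul h (integralAt_overQbar W h) _

/-- `nsVec` is saturated under division by powers of `p`. -/
theorem nsVec_saturated (h : IsPlace A q) {v : Fin 2 → ℤ_[p]} (k : ℕ)
    (hv : ((p : ℤ_[p]) ^ k) • v ∈ nsVec p A q hW h) : v ∈ nsVec p A q hW h := by
  intro n
  have h1 := hv (n + k)
  rw [show ((p : ℤ_[p]) ^ k) • v = p ^ k • v by rw [← Nat.cast_pow, Nat.cast_smul_eq_nsmul],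
    map_nsmul, pow_nsmul_pt_add] at h1
  exact h1

/-- `nsVec` is saturated. -/
theorem mem_of_smul_mem (h : IsPlace A q) {v : Fin 2 → ℤ_[p]} {d : ℤ_[p]} (hd : d ≠ 0)
    (hv : d • v ∈ nsVec p A q hW h) : v ∈ nsVec p A q hW h := by
  obtain ⟨k, u, rfl⟩ : ∃ (k : ℕ) (u : ℤ_[p]ˣ), d = u * (p : ℤ_[p]) ^ k :=
    ⟨_, _, PadicInt.unitCoeff_spec hd⟩
  refine nsVec_saturated h k ?_
  have := (nsVec p A q hW h).smul_mem (↑u⁻¹ : ℤ_[p]) hv
  rwa [smul_smul, ← mul_assoc, Units.inv_mul, one_mul] at this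

/-- The determinant `v₀ w₁ - v₁ w₀` of two vectors. -/
def wedge {R : Type} [CommRing R] (v w : Fin 2 → R) : R := v 0 * w 1 - v 1 * w 0

/-- A nonzero vector over `ℤ_p` is a multiple of a primitive one. -/
theorem exists_primitive_of_ne_zero {w : Fin 2 → ℤ_[p]} (hw : w ≠ 0) :
    ∃ (c : ℤ_[p]) (v : Fin 2 → ℤ_[p]), c ≠ 0 ∧ w = c • v ∧ ∃ i, IsUnit (v i) := by
  have key : ∀ (k : ℕ) (x : Fin 2 → ℤ_[p]), (∃ i, ¬ (p : ℤ_[p]) ^ k ∣ x i) →
      ∃ (c : ℤ_[p]) (v : Fin 2 → ℤ_[p]), c ≠ 0 ∧ x = c • v ∧ ∃ i, IsUnit (v i) := by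
    intro k
    induction k with
    | zero => rintro x ⟨i, hi⟩; exact absurd (by rw [pow_zero]; exact one_dvd _) hi
    | succ k ih =>
      intro x hx
      by_cases hu : ∃ i, IsUnit (x i)
      · exact ⟨1, x, one_ne_zero, (one_smul _ _).symm, hu⟩
      push Not at hu
      have hdvd : ∀ i, (p : ℤ_[p]) ∣ x i := fun i => by
        rw [← Ideal.mem_span_singleton, ← PadicInt.maximalIdeal_eq_span_p]
        exact (IsLocalRing.mem_maximalIdeal _).mpr (hu i)
      choose y hy using hdvd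
      obtain ⟨i, hi⟩ := hx
      obtain ⟨c, v, hc, hv, hv'⟩ := ih y ⟨i, fun e => hi (by
        rw [hy i, pow_succ']; exact mul_dvd_mul_left _ e)⟩
      exact ⟨(p : ℤ_[p]) * c, v, mul_ne_zero (by exact_mod_cast hp.out.ne_zero) hc, by
        ext j; rw [hy j, hv]; simp [mul_assoc], hv'⟩
  obtain ⟨i, hi⟩ : ∃ i, w i ≠ 0 := by
    by_contra hall; push Not at hall; exact hw (funext hall)
  obtain ⟨k, hk⟩ : ∃ k, ¬ (p : ℤ_[p]) ^ k ∣ w i := by
    by_contra hall
    push Not at hall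
    exact hi (PadicInt.ext_of_toZModPow.mp fun n => by
      rw [map_zero]; exact toZModPow_eq_zero_iff.mpr (hall n))
  exact key k w ⟨i, hk⟩

/-- The vectors of nonsingular reduction lie on a line. -/
theorem exists_line_nsVec (hW : W.Δ ≠ 0) (h : IsPlace A q) (hbad : (q : ℤ) ∣ W.Δ)
    (hc : ¬ (q : ℤ) ∣ W.c₄) (hp2 : p ≠ 2) :
    ∃ v : Fin 2 → ℤ_[p], (∃ i, IsUnit (v i)) ∧ ∀ w ∈ nsVec p A q hW h, wedge v w = 0 := by
  by_cases hbot : ∀ w ∈ nsVec p A q hW h, w = 0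
  · exact ⟨Pi.single 0 1, ⟨0, by simp⟩, fun w hw => by simp [hbot w hw, wedge]⟩
  push Not at hbot
  obtain ⟨w₀, hw₀, hne⟩ := hbot
  obtain ⟨c, v, hc0, rfl, hv⟩ := exists_primitive_of_ne_zero hne
  have hvmem : v ∈ nsVec p A q hW h := mem_of_smul_mem h hc0 hw₀
  refine ⟨v, hv, fun w hw => ?_⟩
  by_contra hd
  -- otherwise every vector, in particular a singular torsion point, would be nonsingular
  obtain ⟨P, hP, hP0⟩ := exists_not_inE0 hW h hbad hc hp.out hp2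
  obtain ⟨x, hx⟩ := exists_pt (hW := hW) (p := p) 1 P (by rw [pow_one]; exact hP)
  refine hP0 (hx ▸ ?_)
  have hall : x ∈ nsVec p A q hW h := by
    refine mem_of_smul_mem h hd ?_
    have e : wedge v w • x = (x 0 * w 1 - x 1 * w 0) • v + (v 0 * x 1 - v 1 * x 0) • w := by
      ext i
      fin_cases i <;> simp [wedge] <;> ring
    rw [e]
    exact Submodule.add_mem _ (Submodule.smul_mem _ _ hvmem) (Submodule.smul_mem _ _ hw)
  exact hall 1

/-- `τ - ε` sends every vector into `nsVec`. -/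
theorem sub_zsmul_mem_nsVec (h : IsPlace A q) (hbad : (q : ℤ) ∣ W.Δ) {r t : ℤ}
    (H : IsNodeShift W q r t) (hp2 : p ≠ 2) {τ : Γℚ} (hτ : τ ∈ A.decompositionSubgroup ℚ) {ε : ℤ}
    (hF : Flips A q W r t τ ε) (v : Fin 2 → ℤ_[p]) :
    (rho p hW τ).mulVec v - ((ε : ℤ_[p])) • v ∈ nsVec p A q hW h := by
  intro n
  rw [map_sub, pt_rho, Int.cast_smul_eq_zsmul, map_zsmul]
  exact inE0_smul_sub_zsmul h hW hbad H hτ hF (hp.out.odd_of_ne_two hp2).pow (pow_nsmul_pt n v)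

/-- **Triangular form at a node.** In a suitable basis `rho` is upper triangular on the
decomposition group at a multiplicative prime, with lower right entry `1` on inertia and `splitSign`
at Frobenius. -/
theorem exists_triangular (hW : W.Δ ≠ 0) (h : IsPlace A q) (hbad : (q : ℤ) ∣ W.Δ)
    (hc : ¬ (q : ℤ) ∣ W.c₄) (hp2 : p ≠ 2) {r t : ℤ} (H : IsNodeShift W q r t) :
    ∃ P : (M2 ℤ_[p])ˣ,
      (∀ σ ∈ A.decompositionSubgroup ℚ,
        ((P : M2 ℤ_[p]) * rho p hW σ * (↑P⁻¹ : M2 ℤ_[p])) 1 0 = 0) ∧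
      (∀ σ ∈ A.inertiaSubgroupIn ℚ,
        ((P : M2 ℤ_[p]) * rho p hW σ * (↑P⁻¹ : M2 ℤ_[p])) 1 1 = 1) ∧
      ∀ φ : Γℚ, A.IsFrobeniusAt φ q →
        ((P : M2 ℤ_[p]) * rho p hW φ * (↑P⁻¹ : M2 ℤ_[p])) 1 1 = (splitSign W q r t : ℤ_[p]) := by
  obtain ⟨v, hv, hline⟩ := exists_line_nsVec (p := p) hW h hbad hc hp2
  obtain ⟨a, b, hab⟩ : ∃ a b : ℤ_[p], a * v 0 + b * v 1 = 1 := by
    obtain ⟨i, hi⟩ := hv
    fin_cases i
    · exact ⟨↑hi.unit⁻¹, 0, by simp⟩
    · exact ⟨0, ↑hi.unit⁻¹, by simp⟩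
  let P : (M2 ℤ_[p])ˣ :=
    ⟨!![a, b; -(v 1), v 0], !![v 0, -b; v 1, a], by
      ext i j; fin_cases i <;> fin_cases j <;>
        simp [Matrix.mul_apply, Fin.sum_univ_two, mul_comm] <;> linear_combination hab, by
      ext i j; fin_cases i <;> fin_cases j <;>
        simp [Matrix.mul_apply, Fin.sum_univ_two, mul_comm] <;> linear_combination hab⟩
  -- the second row, from the line relation applied to the new basis
  have row : ∀ (σ : Γℚ) (ε : ℤ), σ ∈ A.decompositionSubgroup ℚ → Flips A q W r t σ ε →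
      ((P : M2 ℤ_[p]) * rho p hW σ * (↑P⁻¹ : M2 ℤ_[p])) 1 0 = 0 ∧
      ((P : M2 ℤ_[p]) * rho p hW σ * (↑P⁻¹ : M2 ℤ_[p])) 1 1 = (ε : ℤ_[p]) := by
    intro σ ε hσ hF
    have h0 := hline _ (sub_zsmul_mem_nsVec (hW := hW) h hbad H hp2 hσ hF v)
    have h1 := hline _ (sub_zsmul_mem_nsVec (hW := hW) h hbad H hp2 hσ hF ![-b, a])
    simp [wedge] at h0 h1
    constructor
    · simp [P, Units.inv_mk, Matrix.mul_apply, Matrix.vecMul, dotProduct, Fin.sum_univ_two]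
      linear_combination h0
    · simp [P, Units.inv_mk, Matrix.mul_apply, Matrix.vecMul, dotProduct, Fin.sum_univ_two]
      linear_combination h1 + (ε : ℤ_[p]) * hab
  refine ⟨P, fun σ hσ => ?_, fun σ hσ => ?_, fun φ hφ => ?_⟩
  · obtain ⟨ε, hF⟩ := exists_flips (W := W) (r := r) (t := t) h hσ
    exact (row σ ε hσ hF).1
  · have hD : σ ∈ A.decompositionSubgroup ℚ := by
      obtain ⟨τ, -, rfl⟩ := hσ; exact τ.2
    simpa using (row σ 1 hD (flips_inertia h hσ)).2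
  · exact (row φ _ hφ.mem_decompositionSubgroup (flips_frobenius h hφ)).2

/-- Inertia at a node away from `p` is unipotent. -/
theorem unipotent_rho (h : IsPlace A q) (hqp : q ≠ p) (hc : (q : ℤ) ∣ W.Δ → ¬ (q : ℤ) ∣ W.c₄)
    (hp2 : p ≠ 2) {σ : Γℚ} (hσ : σ ∈ A.inertiaSubgroupIn ℚ) :
    (rho p hW σ - 1) * (rho p hW σ - 1) = 0 := by
  refine eq_zero_of_forall_pt (hW := hW) fun n v => ?_
  have hI := isInert_of_mem_inertia hσ
  set P := pt p hW n v
  rw [← Matrix.mulVec_mulVec, Matrix.sub_mulVec, Matrix.one_mulVec, map_sub, pt_rho,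
    Matrix.sub_mulVec, Matrix.one_mulVec, map_sub, pt_rho]
  have hP : p ^ n • P = 0 := pow_nsmul_pt n v
  have h0 := Fermat.HT.Mazur.smul_sub_inE0_odd h hI hW hc (hp.out.odd_of_ne_two hp2).pow hP
  exact eq_zero_of_nsmul_eq_zero h (integralAt_overQbar W h) (smul_sub_inE1 W h hI h0)
    (not_dvd_pow h.1 hqp n) (nsmul_gal_sub W (nsmul_gal_sub W hP))

/-- The trace of Frobenius at a node is the split sign times `q + 1`. -/
theorem trace_frobenius_node (h : IsPlace A q) (hqp : q ≠ p) (hp : 2 < p) (hbad : (q : ℤ) ∣ W.Δ)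
    (hc : ¬ (q : ℤ) ∣ W.c₄) {r t : ℤ} (H : IsNodeShift W q r t) {φ : Γℚ}
    (hφ : A.IsFrobeniusAt φ q) :
    (rho p hW φ).trace = (splitSign W q r t : ℤ_[p]) * ((q : ℤ_[p]) + 1) := by
  obtain ⟨P, hD, -, hF⟩ := exists_triangular (p := p) hW h hbad hc (by omega) H
  set T := (P : M2 ℤ_[p]) * rho p hW φ * (↑P⁻¹ : M2 ℤ_[p]) with hT
  have h10 : T 1 0 = 0 := hD φ hφ.mem_decompositionSubgroup
  have h11 : T 1 1 = (splitSign W q r t : ℤ_[p]) := hF φ hφ
  have hdet : T.det = (q : ℤ_[p]) := by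
    rw [hT, Matrix.det_units_conj, det_rho hp, cycO_frobenius padicInt_mem h.1 hqp h.2 hφ]
  have hsq : (splitSign W q r t : ℤ_[p]) ^ 2 = 1 := by
    exact_mod_cast congrArg (Int.cast (R := ℤ_[p])) (splitSign_sq W q r t)
  rw [← Matrix.trace_units_conj P (rho p hW φ), ← hT, Matrix.trace_fin_two, h11]
  rw [Matrix.det_fin_two, h10, h11, mul_zero, sub_zero] at hdet
  linear_combination (splitSign W q r t : ℤ_[p]) * hdet - T 0 0 * hsq

end Fermat.GR.CurveRep

end
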